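import Mathlib
import Fermat.Agent.MUL.S48.W.A.K.Defs
import Fermat.Agent.MUL.F3.I2.Kappa.CharOf
import Fermat.Agent.MUL.S48.W.P.Defs

section MergeWrap_S48_W_A_K_CharOf -- from S48/W/A/K/CharOf.lean

set_option autoImplicit false

noncomputable section

namespace Fermat.Agent.S48WA

open UpperHalfPlane CongruenceSubgroup Complex
open scoped MatrixGroups Real
open Fermat.Agent.F3I2 Fermat.Agent.S48W Fermat.Agent.S48WA2

variable {M : ℕ}

/-- The character `γ ↦ exp (2 π i c(γ) / n)`. -/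
def charOf (n : ℕ) (c : HomParOne M) : ↥(Gamma1 M) →* ℂˣ where
  toFun γ := rootUnit n ^ (c.1 (Additive.ofMul γ))
  map_one' := by
    simp
  map_mul' γ δ := by
    rw [ofMul_mul, map_add, zpow_add]

theorem charOf_apply (n : ℕ) (c : HomParOne M) (γ : ↥(Gamma1 M)) :
    charOf n c γ = rootUnit n ^ (c.1 (Additive.ofMul γ)) := rfl

theorem charOf_pow (n : ℕ) (c : HomParOne M) (γ : ↥(Gamma1 M)) : charOf n c γ ^ n = 1 := by
  rw [charOf_apply, ← zpow_natCast, ← zpow_mul, mul_comm, zpow_mul, zpow_natCast,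
    rootUnit_pow_self, one_zpow]

theorem norm_charOf (n : ℕ) (c : HomParOne M) (γ : ↥(Gamma1 M)) :
    ‖((charOf n c γ : ℂˣ) : ℂ)‖ = 1 := by
  rw [charOf_apply, Units.val_zpow_eq_zpow_val, norm_zpow, norm_rootUnit, one_zpow]

theorem charOf_add (n : ℕ) (c c' : HomParOne M) :
    charOf n (c + c') = charOf n c * charOf n c' := by
  ext γ
  simp only [charOf_apply, MonoidHom.mul_apply, Units.val_mul]
  rw [← Units.val_mul, ← zpow_add]
  rfl

theorem charOf_zero (n : ℕ) : charOf n (0 : HomParOne M) = 1 := by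
  ext γ
  simp [charOf_apply]

theorem charOf_compat {n d : ℕ} (hd : d ≠ 0) (c : HomParOne M) :
    charOf (d * n) c ^ d = charOf n c := by
  ext γ
  simp only [MonoidHom.pow_apply, charOf_apply]
  rw [← zpow_natCast, ← zpow_mul, mul_comm (c.1 (Additive.ofMul γ)) (d : ℤ), zpow_mul,
    zpow_natCast, rootUnit_mul_pow hd]

/-- `χ_{c,n}` is trivial on elements killed by `c`. -/
theorem charOf_eq_one_of_apply_eq_zero (n : ℕ) (c : HomParOne M) {γ : ↥(Gamma1 M)}
    (h : c.1 (Additive.ofMul γ) = 0) : charOf n c γ = 1 := by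
  rw [charOf_apply, h, zpow_zero]

/-- `χ_{c,n}` is trivial on elements of trace `±2`. -/
theorem charOf_eq_one_of_trace (n : ℕ) (c : HomParOne M) {γ : ↥(Gamma1 M)}
    (h : ((γ : SL(2, ℤ)) : Matrix (Fin 2) (Fin 2) ℤ).trace ^ 2 = 4) : charOf n c γ = 1 :=
  charOf_eq_one_of_apply_eq_zero n c (c.2 γ h)

/-- `χ_{c,n}` is trivial on elements of finite order. -/
theorem charOf_eq_one_of_pow_eq_one (n : ℕ) (c : HomParOne M) {γ : ↥(Gamma1 M)} {m : ℕ}
    (hm : m ≠ 0) (h : γ ^ m = 1) : charOf n c γ = 1 := by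
  apply charOf_eq_one_of_apply_eq_zero
  have h1 : c.1 (Additive.ofMul (γ ^ m)) = m • c.1 (Additive.ofMul γ) := by
    rw [ofMul_pow, map_nsmul]
  rw [h, ofMul_one, map_zero] at h1
  have h2 : (m : ℤ) * c.1 (Additive.ofMul γ) = 0 := by
    rw [← h1.symm]
    simp
  rcases mul_eq_zero.1 h2 with h3 | h3
  · exact absurd (by exact_mod_cast h3) hm
  · exact h3

/-- If `χ_{c,n}` is trivial then `c` is divisible by `n`. -/
theorem exists_eq_smul_of_charOf_eq_one {n : ℕ} (hn : n ≠ 0) (c : HomParOne M)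
    (h : charOf n c = 1) : ∃ c' : HomParOne M, c = (n : ℤ) • c' := by
  have hdvd : ∀ γ : ↥(Gamma1 M), (n : ℤ) ∣ c.1 (Additive.ofMul γ) := by
    intro γ
    have h1 : charOf n c γ = 1 := by rw [h]; rfl
    rw [charOf_apply] at h1
    exact (isPrimitiveRoot_rootUnit hn).zpow_eq_one_iff_dvd _ |>.1 h1
  have hn' : (n : ℤ) ≠ 0 := by exact_mod_cast hn
  let c₀ : Additive ↥(Gamma1 M) →+ ℤ :=
    { toFun := fun a => c.1 a / n
      map_zero' := by simp
      map_add' := fun a b => by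
        obtain ⟨ka, hka⟩ := hdvd (Additive.toMul a)
        obtain ⟨kb, hkb⟩ := hdvd (Additive.toMul b)
        simp only [ofMul_toMul] at hka hkb
        rw [map_add, hka, hkb, ← mul_add, Int.mul_ediv_cancel_left _ hn',
          Int.mul_ediv_cancel_left _ hn', Int.mul_ediv_cancel_left _ hn'] }
  have hc₀ : ∀ a, (n : ℤ) * c₀ a = c.1 a := by
    intro a
    obtain ⟨ka, hka⟩ := hdvd (Additive.toMul a)
    simp only [ofMul_toMul] at hka
    show (n : ℤ) * (c.1 a / n) = c.1 a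
    rw [hka, Int.mul_ediv_cancel_left _ hn']
  refine ⟨⟨c₀, ?_⟩, ?_⟩
  · intro γ hγ
    have h1 := hc₀ (Additive.ofMul γ)
    rw [c.2 γ hγ] at h1
    rcases mul_eq_zero.1 h1 with h2 | h2
    · exact absurd h2 hn'
    · exact h2
  · apply Subtype.ext
    ext a
    exact (hc₀ _).symm

end Fermat.Agent.S48WA
end
end MergeWrap_S48_W_A_K_CharOf
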